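import Fermat.Agent.S41.CSP.HeckeSq
import Fermat.Agent.S41.CSP.Adm
import Fermat.Agent.S41.TR.Conc
import Fermat.Agent.G.Per.Defs

/-!
# S41, package EIS: the bridge (7)

`s41ei_bridge`: if `Φ` is additive on `Δ_N = Γ₀(N)(ℤ[1/q])`, kills its trace-2 elements, and
`φ : Γ₀(N)^ab → 𝔄` is its restriction to `Γ₀(N)`, then there is `N' > 0` such that for every prime
`ℓ ∤ N' q N`: `φ ∘ T_ℓ = (ℓ + 1) φ` if `ℓ ≡ 1 mod N'`, and `φ ∘ T_ℓ ∘ T_ℓ = (ℓ + 1)² φ` always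
(`T_ℓ = gprT N ℓ` on `s16lbAb N`).  `N' = (N ^ E)*` for an admissible power of `N`.

Proof: `s41c_hecke_std`, `s41c_hecke_sq` (package CSP) applied to the cocycle of
`s16lbDataT N ℓ` (transported from `GL₂(ℝ)` to matrices over `ℚ`: `s41ei_rep_eq`).
-/

set_option autoImplicit false
namespace Fermat.Agent.S41
open Matrix CongruenceSubgroup
open Fermat.Agent.S16LB Fermat.Agent.G
open P2MW.S_ModularForm_heckeT_slash_eq_self_of_mem_Gamma0.ModularForm.HeckeSlashInvariance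
open ModularForm Matrix.SpecialLinearGroup
open scoped MatrixGroups

section

variable {ℓ : ℕ} [Fact ℓ.Prime]

/-- the relation `α_x g = g' α_y` in `GL₂(ℝ)` as a matrix identity over `ℚ`. -/
theorem s41ei_rep_eq {x y : OnePoint (ZMod ℓ)} {g g' : SL(2, ℤ)}
    (h : heckeRep ℓ x * mapGL ℝ g = mapGL ℝ g' * heckeRep ℓ y) :
    s41cRep ℓ x * ((s41trCast g : SL(2, ℚ)) : Matrix (Fin 2) (Fin 2) ℚ)
      = ((s41trCast g' : SL(2, ℚ)) : Matrix (Fin 2) (Fin 2) ℚ) * s41cRep ℓ y := by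
  have hv := congrArg (fun M : GL (Fin 2) ℝ => (M : Matrix (Fin 2) (Fin 2) ℝ)) h
  simp only [Units.val_mul, s16lb_val_mapGL, s16lb_val_heckeRep] at hv
  have h00 := congrFun (congrFun hv 0) 0
  have h01 := congrFun (congrFun hv 0) 1
  have h10 := congrFun (congrFun hv 1) 0
  have h11 := congrFun (congrFun hv 1) 1
  simp [Matrix.mul_apply, Fin.sum_univ_two] at h00 h01 h10 h11
  have e00 : ((s16lbRepA ℓ x : ℤ) * g 0 0 + s16lbRepB ℓ x * g 1 0 : ℤ) = g' 0 0 * s16lbRepA ℓ y := by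
    have : (((s16lbRepA ℓ x : ℤ) * g 0 0 + s16lbRepB ℓ x * g 1 0 : ℤ) : ℝ)
        = ((g' 0 0 * s16lbRepA ℓ y : ℤ) : ℝ) := by push_cast; linarith
    exact_mod_cast this
  have e01 : ((s16lbRepA ℓ x : ℤ) * g 0 1 + s16lbRepB ℓ x * g 1 1 : ℤ)
      = g' 0 0 * s16lbRepB ℓ y + g' 0 1 * s16lbRepD ℓ y := by
    have : (((s16lbRepA ℓ x : ℤ) * g 0 1 + s16lbRepB ℓ x * g 1 1 : ℤ) : ℝ)
        = ((g' 0 0 * s16lbRepB ℓ y + g' 0 1 * s16lbRepD ℓ y : ℤ) : ℝ) := by push_cast; linarith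
    exact_mod_cast this
  have e10 : ((s16lbRepD ℓ x : ℤ) * g 1 0 : ℤ) = g' 1 0 * s16lbRepA ℓ y := by
    have : (((s16lbRepD ℓ x : ℤ) * g 1 0 : ℤ) : ℝ) = ((g' 1 0 * s16lbRepA ℓ y : ℤ) : ℝ) := by
      push_cast; linarith
    exact_mod_cast this
  have e11 : ((s16lbRepD ℓ x : ℤ) * g 1 1 : ℤ)
      = g' 1 0 * s16lbRepB ℓ y + g' 1 1 * s16lbRepD ℓ y := by
    have : (((s16lbRepD ℓ x : ℤ) * g 1 1 : ℤ) : ℝ)
        = ((g' 1 0 * s16lbRepB ℓ y + g' 1 1 * s16lbRepD ℓ y : ℤ) : ℝ) := by push_cast; linarith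
    exact_mod_cast this
  have hA : ∀ z : OnePoint (ZMod ℓ), s41cRepA ℓ z = s16lbRepA ℓ z := fun _ => rfl
  have hB : ∀ z : OnePoint (ZMod ℓ), s41cRepB ℓ z = s16lbRepB ℓ z := fun _ => rfl
  have hD : ∀ z : OnePoint (ZMod ℓ), s41cRepD ℓ z = s16lbRepD ℓ z := fun _ => rfl
  unfold s41cRep
  rw [hA, hB, hD, hA, hB, hD]
  ext i j
  fin_cases i <;> fin_cases j
  · simp only [Matrix.mul_apply, Fin.sum_univ_two, s41trCast_apply]
    simp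
    exact_mod_cast e00
  · simp only [Matrix.mul_apply, Fin.sum_univ_two, s41trCast_apply]
    simp
    exact_mod_cast e01
  · simp only [Matrix.mul_apply, Fin.sum_univ_two, s41trCast_apply]
    simp
    exact_mod_cast e10
  · simp only [Matrix.mul_apply, Fin.sum_univ_two, s41trCast_apply]
    simp
    exact_mod_cast e11

end
theorem s41ei_cast_mem_G (q : ℕ) (g : SL(2, ℤ)) : s41trCast g ∈ s41cG q := by
  intro i j
  rw [s41trCast_apply]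
  exact s41cA_int q _

theorem s41ei_cast_mem_Delta (q : ℕ) {N : ℕ} (γ : Gamma0 N) :
    s41trCast (γ : SL(2, ℤ)) ∈ s41cDelta q N := by
  refine ⟨s41ei_cast_mem_G q _, ?_⟩
  rw [s41trCast_apply]
  exact s41cDvd_of_int_dvd (s16lb_dvd_of_mem_Gamma0 γ.2)

/-- every element of `Γ₀(N)^ab` is a class -/
theorem s41ei_cls_surjective (N : ℕ) (x : s16lbAb N) :
    ∃ γ : Gamma0 N, s16lbCls N (Additive.ofMul γ) = x := by
  obtain ⟨γ, hγ⟩ := QuotientGroup.mk_surjective (Additive.toMul x)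
  exact ⟨γ, congrArg Additive.ofMul hγ⟩

section

variable {N : ℕ} {ℓ : ℕ} [Fact ℓ.Prime] {𝔄 : Type*} [AddCommGroup 𝔄]

theorem s41ei_comp_T_cls (hℓN : ¬ ℓ ∣ N) (φ : s16lbAb N →+ 𝔄) (γ : Gamma0 N) :
    (φ.comp (gprT N ℓ)) (s16lbCls N (Additive.ofMul γ))
      = ∑ i, φ (s16lbCls N (Additive.ofMul ((s16lbDataT N ℓ hℓN).coc γ i))) := by
  rw [gprT_eq N hℓN, AddMonoidHom.comp_apply]
  have : s16lbCls N (Additive.ofMul γ) = Additive.ofMul (Abelianization.of γ) := rfl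
  rw [this, S16lbHeckeData.trEnd_of, map_sum]
  rfl

theorem s41ei_spec (hℓN : ¬ ℓ ∣ N) (γ : Gamma0 N) (i : OnePoint (ZMod ℓ)) :
    s41cRep ℓ i * ((s41trCast (γ : SL(2, ℤ)) : SL(2, ℚ)) : Matrix (Fin 2) (Fin 2) ℚ)
      = ((s41trCast (((s16lbDataT N ℓ hℓN).coc γ i : Gamma0 N) : SL(2, ℤ)) : SL(2, ℚ)) :
          Matrix (Fin 2) (Fin 2) ℚ) * s41cRep ℓ ((s16lbDataT N ℓ hℓN).idx γ i) :=
  s41ei_rep_eq ((s16lbDataT N ℓ hℓN).spec γ i)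

end

/-- **(7) EIS bridge.** -/
theorem s41ei_bridge {q N : ℕ} (hq : q.Prime) (hN : 0 < N) (hNq : Nat.Coprime N q)
    {𝔄 : Type*} [AddCommGroup 𝔄] (Φ : SL(2, ℚ) → 𝔄) (H : S41cHom q N Φ)
    (φ : s16lbAb N →+ 𝔄)
    (hφ : ∀ γ : Gamma0 N, φ (s16lbCls N (Additive.ofMul γ)) = Φ (s41trCast (γ : SL(2, ℤ)))) :
    ∃ N' : ℕ, 0 < N' ∧ ∀ ℓ : ℕ, ℓ.Prime → ¬ ℓ ∣ N' * q * N →
      (ℓ ≡ 1 [MOD N'] → φ.comp (gprT N ℓ) = (ℓ + 1) • φ) ∧
      (φ.comp (gprT N ℓ)).comp (gprT N ℓ) = (ℓ + 1) ^ 2 • φ := by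
  obtain ⟨E, hE, hadm⟩ := s41c_exists_adm hq hN hNq
  have hM : S41cAdm q (N ^ E) := hadm E le_rfl
  have hNM : N ∣ N ^ E := dvd_pow_self N (Nat.pos_iff_ne_zero.mp hE)
  have hMpos : 0 < N ^ E := pow_pos hN E
  have hstar : 0 < s41cStar (N ^ E) := by
    unfold s41cStar
    split_ifs <;> omega
  refine ⟨s41cStar (N ^ E), hstar, fun ℓ hℓ hnd => ?_⟩
  have : Fact ℓ.Prime := ⟨hℓ⟩
  have hℓN' : ¬ ℓ ∣ s41cStar (N ^ E) := fun h => hnd (Dvd.dvd.mul_right (Dvd.dvd.mul_right h q) N)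
  have hℓq : ℓ ≠ q := fun h => hnd (Dvd.dvd.mul_right (Dvd.dvd.mul_left (h ▸ dvd_refl ℓ) _) N)
  have hℓN : ¬ ℓ ∣ N := fun h => hnd (Dvd.dvd.mul_left h _)
  have hcop : Nat.Coprime ℓ (s41cStar (N ^ E)) := (Nat.Prime.coprime_iff_not_dvd hℓ).mpr hℓN'
  constructor
  · intro hℓ1
    refine AddMonoidHom.ext fun x => ?_
    obtain ⟨γ, rfl⟩ := s41ei_cls_surjective N x
    rw [s41ei_comp_T_cls hℓN, AddMonoidHom.smul_apply, hφ γ]
    simp only [hφ]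
    exact s41c_hecke_std hq hM hNM H hℓq hℓ1 (s41ei_cast_mem_Delta q γ)
      ((s16lbDataT N ℓ hℓN).idx γ) _ (fun i => s41ei_cast_mem_G q _) (s41ei_spec hℓN γ)
  · refine AddMonoidHom.ext fun x => ?_
    obtain ⟨γ, rfl⟩ := s41ei_cls_surjective N x
    rw [s41ei_comp_T_cls hℓN, AddMonoidHom.smul_apply, hφ γ]
    simp only [s41ei_comp_T_cls hℓN, hφ]
    exact s41c_hecke_sq hq hM hNM H hℓq hcop (s41ei_cast_mem_Delta q γ)
      ((s16lbDataT N ℓ hℓN).idx γ) _ (fun i => s41ei_cast_mem_G q _) (s41ei_spec hℓN γ)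
      (fun i i' => (s16lbDataT N ℓ hℓN).idx ((s16lbDataT N ℓ hℓN).coc γ i) i') _
      (fun i i' => s41ei_cast_mem_G q _)
      (fun i i' => s41ei_spec hℓN ((s16lbDataT N ℓ hℓN).coc γ i) i')

end Fermat.Agent.S41
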